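import Fermat.Agent.LT.T6.H558.QuatSetSpec

/-!
# Row LT, tower T6, sub-leaf T6.18i.6b.5 (helper197): `LeafQuatTorus558`

`leafQuatTorus197 : H558.LeafQuatTorus558 = T6.TwCentC → H558.QuatTorusC558`, against the
byte-identical copy of `LT/T6/H558/QuatSetSpec.lean` (helper558, sha256 `3a49f9f1…`).

Proof.  `c (N δ₁) c⁻¹ = i γ`; `δ' = c δ₁ σ(c)⁻¹` has `N δ' = i γ` (`σ² = 1`), and `t` lies in the
twisted centraliser of `δ₁` iff `c t c⁻¹` lies in the one of `δ'`, which is the image of the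
centraliser of `γ` (`TwCentC`).  If `ord det t₀ = 2 j + 1`, then `ϖ^(-(j+1))`-scaled `t₀`
commutes with `γ` and has determinant of valuation `exp (-1)`.
-/

set_option autoImplicit false

open scoped Matrix

namespace Fermat.Agent.LT.T6.H197

open Fermat.Agent.LT.T6 Fermat.Agent.LT.T6.H783 Fermat.Agent.LT.T6.H385 Fermat.Agent.LT.T6.H558

theorem twNorm_two197 {R : Type} [CommRing R] (s : R ≃+* R) (δ : GL (Fin 2) R) :
    twNorm s 2 δ = δ * glAut s δ := by
  simp [twNorm, twN]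

theorem glAut_glAut197 {R : Type} [CommRing R] (s : R ≃+* R) (h : ∀ y : R, (s ^ 2) y = y)
    (x : GL (Fin 2) R) : glAut s (glAut s x) = x := by
  apply Matrix.GeneralLinearGroup.ext
  intro a b
  have := h ((x : Matrix (Fin 2) (Fin 2) R) a b)
  simpa [glAut, pow_two] using this

/-- Transport of the twisted centraliser under twisted conjugation. -/
theorem inTwCent_conj197 {R : Type} [CommRing R] (s : R ≃+* R) (c δ t : GL (Fin 2) R) :
    InTwCent s (c * δ * (glAut s c)⁻¹) (c * t * c⁻¹) ↔ InTwCent s δ t := by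
  unfold InTwCent
  have hgen : (c * t * c⁻¹)⁻¹ * (c * δ * (glAut s c)⁻¹) * glAut s (c * t * c⁻¹)
      = c * (t⁻¹ * δ * glAut s t) * (glAut s c)⁻¹ := by
    simp only [map_mul, map_inv]
    group
  rw [hgen, mul_left_inj, mul_right_inj]

theorem det_map197 {k k' : Type} [Field k] [Field k'] (i : k →+* k') (t : GL (Fin 2) k) :
    ((Matrix.GeneralLinearGroup.map i t : GL (Fin 2) k') : Matrix (Fin 2) (Fin 2) k').det
      = i (t : Matrix (Fin 2) (Fin 2) k).det := by
  rw [RingHom.map_det]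
  rfl

theorem det_conj197 {R : Type} [CommRing R] (c t : GL (Fin 2) R) :
    ((c * t * c⁻¹ : GL (Fin 2) R) : Matrix (Fin 2) (Fin 2) R).det
      = (t : Matrix (Fin 2) (Fin 2) R).det := by
  have h1 : ((c⁻¹ : GL (Fin 2) R) : Matrix (Fin 2) (Fin 2) R).det
      * (c : Matrix (Fin 2) (Fin 2) R).det = 1 := by
    rw [← Matrix.det_mul, ← Matrix.GeneralLinearGroup.coe_mul, inv_mul_cancel]
    simp
  simp only [Matrix.GeneralLinearGroup.coe_mul, Matrix.det_mul]
  linear_combination (t : Matrix (Fin 2) (Fin 2) R).det * h1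

/-- **T6.18i.6b.5** (registry row 1535). -/
theorem quatTorus_of_twCent197 (hTw : TwCentC) : QuatTorusC558 := by
  intro k k' _ _ _ _ q e i s hQ δ₁ γ hreg hconj
  have hcyc : IsCyclicData k k' 2 i s := hQ.ext.cyc
  obtain ⟨c, hc⟩ := isConj_iff.mp hconj
  rw [twNorm_two197] at hc
  -- the twisted conjugate with norm exactly `i γ`
  set δ' : GL (Fin 2) k' := c * δ₁ * (glAut s c)⁻¹ with hδ'
  have hN : twNorm s 2 δ' = Matrix.GeneralLinearGroup.map i γ := by
    rw [twNorm_two197, ← hc, hδ']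
    simp only [map_mul, map_inv, glAut_glAut197 s hcyc.order]
    group
  have hcent := hTw k k' 2 i s hcyc δ' γ hreg hN
  have hinj : Function.Injective i := i.injective
  constructor
  · rintro ⟨t₀, hcomm, hv⟩
    refine ⟨c⁻¹ * Matrix.GeneralLinearGroup.map i t₀ * c, (t₀ : Matrix (Fin 2) (Fin 2) k).det,
      ?_, ?_, hv⟩
    · have h1 : InTwCent s δ' (Matrix.GeneralLinearGroup.map i t₀) :=
        (hcent _).mpr ⟨t₀, hcomm, rfl⟩
      have h2 : c * (c⁻¹ * Matrix.GeneralLinearGroup.map i t₀ * c) * c⁻¹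
          = Matrix.GeneralLinearGroup.map i t₀ := by group
      rw [← h2] at h1
      exact (inTwCent_conj197 s c δ₁ _).mp h1
    · have h := det_conj197 c⁻¹ (Matrix.GeneralLinearGroup.map i t₀)
      rw [inv_inv] at h
      rw [h, det_map197]
  · intro hnr t ν ht hdet
    have h1 : InTwCent s δ' (c * t * c⁻¹) := (inTwCent_conj197 s c δ₁ t).mpr ht
    obtain ⟨t₀, hcomm, hx⟩ := (hcent _).mp h1
    have hdet0 : (t₀ : Matrix (Fin 2) (Fin 2) k).det = ν := by
      apply hinj
      rw [← det_map197, ← hx, det_conj197, hdet]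
    have hν0 : ν ≠ 0 := by
      rw [← hdet0]
      exact ((Matrix.isUnit_iff_isUnit_det _).mp ⟨t₀, rfl⟩).ne_zero
    have hv0 : Valued.v ν ≠ 0 := (Valuation.ne_zero_iff _).mpr hν0
    obtain ⟨j, hj | hj⟩ := Int.even_or_odd' (WithZero.log (Valued.v ν))
    · exact ⟨j, by rw [← hj, WithZero.exp_log hv0]⟩
    · exfalso
      obtain ⟨ϖ, hϖ⟩ := hQ.hk.unif
      have hϖ0 : ϖ ≠ 0 := by
        intro h
        rw [h, map_zero] at hϖ
        exact WithZero.exp_ne_zero hϖ.symm
      have hdetM : ((ϖ ^ (j + 1)) • (t₀ : Matrix (Fin 2) (Fin 2) k)).det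
          = (ϖ ^ (j + 1)) ^ 2 * ν := by
        rw [Matrix.det_smul, Fintype.card_fin, hdet0]
      have hne : ((ϖ ^ (j + 1)) • (t₀ : Matrix (Fin 2) (Fin 2) k)).det ≠ 0 := by
        rw [hdetM]
        exact mul_ne_zero (pow_ne_zero _ (zpow_ne_zero _ hϖ0)) hν0
      apply hnr
      refine ⟨Matrix.GeneralLinearGroup.mkOfDetNeZero _ hne, ?_, ?_⟩
      · apply Units.ext
        have hc' := congrArg (fun g : GL (Fin 2) k => (g : Matrix (Fin 2) (Fin 2) k)) hcomm
        simp only [Matrix.GeneralLinearGroup.coe_mul] at hc'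
        show ((ϖ ^ (j + 1)) • (t₀ : Matrix (Fin 2) (Fin 2) k)) * (γ : Matrix (Fin 2) (Fin 2) k)
          = (γ : Matrix (Fin 2) (Fin 2) k) * ((ϖ ^ (j + 1)) • (t₀ : Matrix (Fin 2) (Fin 2) k))
        rw [Matrix.smul_mul, Matrix.mul_smul, hc']
      · show Valued.v ((ϖ ^ (j + 1)) • (t₀ : Matrix (Fin 2) (Fin 2) k)).det = WithZero.exp (-1 : ℤ)
        rw [hdetM, map_mul, map_pow, map_zpow₀, hϖ, ← WithZero.exp_log hv0, hj,
          ← WithZero.exp_zsmul, ← WithZero.exp_nsmul, ← WithZero.exp_add]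
        congr 1
        simp only [smul_eq_mul, nsmul_eq_mul]
        push_cast
        ring

/-- **T6.18i.6b.5 `LeafQuatTorus558`, VERBATIM.** -/
theorem leafQuatTorus197 : LeafQuatTorus558 :=
  fun hTw => quatTorus_of_twCent197 hTw

end Fermat.Agent.LT.T6.H197
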